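/-
S15lib / Dict / EL2 / Nodal  (helper6) — Project E, block (DICT), sub-block (EL2)

The nodal cubic `y² + xy = x³` (`S58lib.Mult.nodal`): the parametrisation `gm : kˣ → E_ns(k)` of
helper9 is ONTO, hence a point of exact order `p` is `gm ζ` for a primitive `p`-th root of unity
`ζ`, and its multiples are `gm (ζ ^ j)`.
-/
import Mathlib
import Fermat.Agent.S58lib.Mult.Gm

set_option autoImplicit false

namespace Fermat.Agent.S15lib.Dict.EL2

open WeierstrassCurve WeierstrassCurve.Affine Fermat.Agent.S58lib.Mult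

variable {k : Type*} [Field k] [DecidableEq k]

/-- the parametrisation of the nodal cubic is onto -/
theorem gm_surjective : Function.Surjective (gm (k := k)) := by
  intro P
  rcases P with _ | ⟨x, y, h⟩
  · exact ⟨1, gm_of_eq_one rfl⟩
  · have heq : y ^ 2 + x * y = x ^ 3 := by
      have := h.1
      rw [Affine.equation_iff] at this
      simp only [nodal_a₁, nodal_a₂, nodal_a₃, nodal_a₄, nodal_a₆] at this
      linear_combination this
    have hns := h
    rw [Affine.nonsingular_iff] at hns
    simp only [nodal_a₁, nodal_a₂, nodal_a₃, nodal_a₄] at hns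
    -- `y ≠ 0`
    have hy : y ≠ 0 := by
      rintro rfl
      have hx : x = 0 := by
        have : x ^ 3 = 0 := by linear_combination -heq
        exact pow_eq_zero_iff (by norm_num) |>.1 this
      subst hx
      rcases hns.2 with h1 | h1 <;> simp at h1
    -- `x + y ≠ 0`
    have hxy : x + y ≠ 0 := by
      intro h0
      have hx : x = 0 := by
        have : x ^ 3 = 0 := by
          have hy' : y = -x := by linear_combination h0
          rw [hy'] at heq
          linear_combination -heq
        exact pow_eq_zero_iff (by norm_num) |>.1 this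
      have hy' : y = 0 := by rw [hx, zero_add] at h0; exact h0
      exact hy hy'
    -- `x ≠ 0`
    have hx : x ≠ 0 := by
      rintro rfl
      have : y ^ 2 = 0 := by linear_combination heq
      exact hy (pow_eq_zero_iff (by norm_num) |>.1 this)
    set u : k := (x + y) / y with hu
    have hu0 : u ≠ 0 := div_ne_zero hxy hy
    have hu1 : u ≠ 1 := by
      intro h1
      rw [hu, div_eq_one_iff_eq hy] at h1
      exact hx (by linear_combination h1)
    have hsub : u - 1 = x / y := by rw [hu]; field_simp; ring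
    refine ⟨Units.mk0 u hu0, ?_⟩
    rw [gm_of_ne_one (u := Units.mk0 u hu0) hu1]
    refine some_eq_some _ _ ?_ ?_
    · show gX u = x
      rw [gX, hsub, hu]
      field_simp
      linear_combination heq
    · show gY u = y
      rw [gY, hsub, hu]
      field_simp
      linear_combination heq

/-- multiples on the nodal cubic -/
theorem nsmul_gm (u : kˣ) (j : ℕ) : j • gm u = gm (u ^ j) := by
  induction j with
  | zero => rw [zero_nsmul, pow_zero]; exact (gm_of_eq_one rfl).symm
  | succ j ih => rw [succ_nsmul, ih, pow_succ, gm_mul]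

/-- a point of exact order `p` on the nodal cubic is `gm ζ`, `ζ` a primitive `p`-th root of
unity -/
theorem exists_primitiveRoot_of_addOrderOf {P : (nodal k).toAffine.Point} {p : ℕ}
    (hP : addOrderOf P = p) :
    ∃ ζ : kˣ, IsPrimitiveRoot (ζ : k) p ∧ ∀ j : ℕ, j • P = gm (ζ ^ j) := by
  obtain ⟨ζ, rfl⟩ := gm_surjective P
  refine ⟨ζ, ?_, fun j => nsmul_gm ζ j⟩
  have h1 : orderOf (gmHom ζ) = orderOf ζ := orderOf_injective (gmHom (k := k)) gmHom_injective ζ
  have h2 : orderOf (gmHom ζ) = addOrderOf (gm ζ) := (orderOf_ofAdd_eq_addOrderOf _)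
  rw [IsPrimitiveRoot.coe_units_iff, ← hP, ← h2, h1]
  exact IsPrimitiveRoot.orderOf ζ

/-- the coordinates of `gm u` -/
theorem gm_eq_some {u : kˣ} (h : (u : k) ≠ 1) :
    gm u = Point.some (gX (u : k)) (gY (u : k)) (nonsingular_g u.ne_zero h) := gm_of_ne_one h

omit [DecidableEq k] in
/-- `2Y + X` at the point with parameter `u` -/
theorem two_gY_add_gX {u : k} (h1 : u ≠ 1) :
    2 * gY u + gX u = u * (u + 1) / (u - 1) ^ 3 := by
  have ha : u - 1 ≠ 0 := sub_ne_zero.2 h1
  rw [gX, gY]
  field_simp
  ring

omit [DecidableEq k] in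
/-- `X(u⁻¹) = X(u)` -/
theorem gX_inv {u : k} (h0 : u ≠ 0) (h1 : u ≠ 1) : gX u⁻¹ = gX u := by
  have h1' : u⁻¹ ≠ 1 := fun h => h1 (inv_eq_one.1 h)
  exact (gX_eq_iff h1' h1).2 (Or.inr (inv_mul_cancel₀ h0))

end Fermat.Agent.S15lib.Dict.EL2
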