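/-
S15lib / Dict / EL2 / RootSum  (helper6) — Project E, block (DICT), sub-block (EL2)

The root-of-unity sum behind `c₄(E/⟨Q⟩) ≡ p⁴ c₄` on a nodal cubic:  for a primitive `p`-th root of
unity `ζ` in a field where `2, 3, 5` are invertible,

  `120 * ∑_{k=1}^{p-1} (6 X_k² + X_k) = p⁴ - 1`,   `X_k = ζ^k / (ζ^k - 1)²`.

Proof: with `w_k = 1 / (1 - ζ^k)` one has `X_k = w_k² - w_k`, `p Y ∏ (1 + w_k Y) = (1 + Y)^p - 1`
(Vieta), and Newton's identities up to degree `4`, proved by hand from
`E' = E (p₁ - p₂ Y + p₃ Y² - p₄ Y³) + Y⁴ (…)`.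
-/
import Mathlib
import Fermat.Agent.S44lib.Q3.RootsNearOne

set_option autoImplicit false

namespace Fermat.Agent.S15lib.Dict.EL2

open Polynomial

section Newton

variable {K : Type*} [Field K] {ι : Type*} [DecidableEq ι] (s : Finset ι) (w : ι → K)

/-- `∏ (1 + w_i Y)` -/
noncomputable def genE : K[X] := ∏ i ∈ s, (1 + C (w i) * X)

/-- the power sums -/
def psumK (n : ℕ) : K := ∑ i ∈ s, w i ^ n

theorem derivative_genE :
    derivative (genE s w) = genE s w *
        (C (psumK s w 1) - C (psumK s w 2) * X + C (psumK s w 3) * X ^ 2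
          - C (psumK s w 4) * X ^ 3)
      + X ^ 4 * ∑ i ∈ s, C (w i ^ 5) * ∏ j ∈ s.erase i, (1 + C (w j) * X) := by
  rw [genE, derivative_prod_finset]
  have hterm : ∀ i ∈ s, (∏ j ∈ s.erase i, (1 + C (w j) * X)) * derivative (1 + C (w i) * X)
      = (∏ j ∈ s, (1 + C (w j) * X)) *
          (C (w i ^ 1) - C (w i ^ 2) * X + C (w i ^ 3) * X ^ 2 - C (w i ^ 4) * X ^ 3)
        + X ^ 4 * (C (w i ^ 5) * ∏ j ∈ s.erase i, (1 + C (w j) * X)) := by
    intro i hi
    rw [← Finset.prod_erase_mul s _ hi]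
    have hd : derivative (1 + C (w i) * X : K[X]) = C (w i) := by
      rw [derivative_add, derivative_one, zero_add, derivative_C_mul, derivative_X, mul_one]
    rw [hd]
    simp only [map_pow]
    ring
  rw [Finset.sum_congr rfl hterm, Finset.sum_add_distrib, ← Finset.mul_sum, ← Finset.mul_sum]
  congr 2
  simp only [psumK, map_sum, Finset.sum_sub_distrib, Finset.sum_add_distrib, Finset.sum_mul]

/-- **Newton's identities up to degree four**, for the coefficients `e j` of `∏ (1 + w_i Y)` -/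
theorem newton_four :
    (genE s w).coeff 1 = psumK s w 1 * (genE s w).coeff 0 ∧
    (genE s w).coeff 2 * 2 = psumK s w 1 * (genE s w).coeff 1
      - psumK s w 2 * (genE s w).coeff 0 ∧
    (genE s w).coeff 3 * 3 = psumK s w 1 * (genE s w).coeff 2
      - psumK s w 2 * (genE s w).coeff 1 + psumK s w 3 * (genE s w).coeff 0 ∧
    (genE s w).coeff 4 * 4 = psumK s w 1 * (genE s w).coeff 3
      - psumK s w 2 * (genE s w).coeff 2 + psumK s w 3 * (genE s w).coeff 1
      - psumK s w 4 * (genE s w).coeff 0 := by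
  have h := derivative_genE s w
  set E := genE s w with hE
  set T := ∑ i ∈ s, C (w i ^ 5) * ∏ j ∈ s.erase i, (1 + C (w j) * X) with hT
  have hexp : E * (C (psumK s w 1) - C (psumK s w 2) * X + C (psumK s w 3) * X ^ 2
          - C (psumK s w 4) * X ^ 3) + X ^ 4 * T
      = C (psumK s w 1) * E - C (psumK s w 2) * (X * E) + C (psumK s w 3) * (X ^ 2 * E)
          - C (psumK s w 4) * (X ^ 3 * E) + X ^ 4 * T := by ring
  rw [hexp] at h
  have h0 := congrArg (fun q : K[X] => q.coeff 0) h
  have h1 := congrArg (fun q : K[X] => q.coeff 1) h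
  have h2 := congrArg (fun q : K[X] => q.coeff 2) h
  have h3 := congrArg (fun q : K[X] => q.coeff 3) h
  simp only [coeff_derivative, coeff_add, coeff_sub, coeff_C_mul, coeff_X_pow_mul',
    coeff_X_mul_zero, mul_zero, sub_zero] at h0 h1 h2 h3
  norm_num at h0 h1 h2 h3
  exact ⟨h0, h1, h2, h3⟩

end Newton

section Roots

variable {K : Type*} [Field K] {p : ℕ} {ζ : K}

/-- `w_k = 1 / (1 - ζ^k)` -/
noncomputable def wOf (ζ : K) (k : ℕ) : K := (1 - ζ ^ k)⁻¹

theorem one_sub_pow_ne_zero (hζ : IsPrimitiveRoot ζ p) {k : ℕ}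
    (hk : k ∈ (Finset.range p).erase 0) : 1 - ζ ^ k ≠ 0 := by
  rw [Finset.mem_erase, Finset.mem_range] at hk
  exact sub_ne_zero.2 (hζ.pow_ne_one_of_pos_of_lt hk.1 hk.2).symm

theorem prod_one_sub (hp : 0 < p) (hζ : IsPrimitiveRoot ζ p) :
    ∏ k ∈ (Finset.range p).erase 0, (1 - ζ ^ k) = (p : K) := by
  have h := Fermat.Agent.S44lib.Q3.prod_erase_root_sub hp hζ (k := 0) (Finset.mem_range.2 hp)
  simpa using h

/-- **Vieta**: `p Y ∏_{k=1}^{p-1} (1 + w_k Y) = (1 + Y)^p - 1` -/
theorem vieta (hp : 0 < p) (hζ : IsPrimitiveRoot ζ p) :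
    C (p : K) * X * genE ((Finset.range p).erase 0) (wOf ζ) = (1 + X) ^ p - 1 := by
  have h := X_pow_sub_C_eq_prod hζ hp (one_pow p : (1 : K) ^ p = 1)
  have h2 := congrArg (fun q : K[X] => q.comp (1 + X)) h
  simp only [sub_comp, pow_comp, X_comp, C_comp, prod_comp, mul_one, map_one, one_comp] at h2
  rw [h2, ← Finset.mul_prod_erase (Finset.range p) _ (Finset.mem_range.2 hp)]
  have h0 : (1 + X - C (ζ ^ 0) : K[X]) = X := by rw [pow_zero, map_one]; ring
  rw [h0]
  have hfac : ∀ k ∈ (Finset.range p).erase 0,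
      (1 + X - C (ζ ^ k) : K[X]) = C (1 - ζ ^ k) * (1 + C (wOf ζ k) * X) := by
    intro k hk
    have hne := one_sub_pow_ne_zero hζ hk
    rw [mul_add, mul_one, ← mul_assoc, ← C_mul, wOf, mul_inv_cancel₀ hne, map_one, one_mul,
      map_sub, map_one]
    ring
  rw [Finset.prod_congr rfl hfac, Finset.prod_mul_distrib, ← map_prod]
  have hprod : ∏ k ∈ (Finset.range p).erase 0, (1 - ζ ^ k) = (p : K) := by
    exact prod_one_sub hp hζ
  rw [hprod, genE]
  ring

/-- the coefficients of `∏ (1 + w_k Y)` -/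
theorem coeff_genE (hp : 0 < p) (hζ : IsPrimitiveRoot ζ p) (j : ℕ) :
    (p : K) * (genE ((Finset.range p).erase 0) (wOf ζ)).coeff j = (p.choose (j + 1) : K) := by
  have h := congrArg (fun q : K[X] => q.coeff (j + 1)) (vieta hp hζ)
  simp only [mul_assoc, coeff_C_mul, coeff_X_mul, coeff_sub, coeff_one_add_X_pow, coeff_one] at h
  simpa using h

theorem factorial_mul_choose (p k : ℕ) :
    ((k.factorial : ℕ) : K) * (p.choose k : K) = (descPochhammer K k).eval (p : K) := by
  rw [descPochhammer_eval_eq_descFactorial, Nat.descFactorial_eq_factorial_mul_choose,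
    Nat.cast_mul]

theorem choose_two_eq (p : ℕ) : (2 : K) * (p.choose 2 : K) = (p : K) * ((p : K) - 1) := by
  have h := factorial_mul_choose (K := K) p 2
  simp [descPochhammer_succ_right, Nat.factorial] at h
  linear_combination h

theorem choose_three_eq (p : ℕ) :
    (6 : K) * (p.choose 3 : K) = (p : K) * ((p : K) - 1) * ((p : K) - 2) := by
  have h := factorial_mul_choose (K := K) p 3
  simp [descPochhammer_succ_right, Nat.factorial] at h
  linear_combination h

theorem choose_four_eq (p : ℕ) :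
    (24 : K) * (p.choose 4 : K) = (p : K) * ((p : K) - 1) * ((p : K) - 2) * ((p : K) - 3) := by
  have h := factorial_mul_choose (K := K) p 4
  simp [descPochhammer_succ_right, Nat.factorial] at h
  linear_combination h

theorem choose_five_eq (p : ℕ) :
    (120 : K) * (p.choose 5 : K)
      = (p : K) * ((p : K) - 1) * ((p : K) - 2) * ((p : K) - 3) * ((p : K) - 4) := by
  have h := factorial_mul_choose (K := K) p 5
  simp [descPochhammer_succ_right, Nat.factorial] at h
  linear_combination h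

theorem natCast_ne_zero_of_primitiveRoot (hp : 0 < p) (hζ : IsPrimitiveRoot ζ p) :
    (p : K) ≠ 0 := by
  rw [← prod_one_sub hp hζ, Finset.prod_ne_zero_iff]
  exact fun k hk => one_sub_pow_ne_zero hζ hk

/-- **the root-of-unity sum**:  `120 ∑_{k=1}^{p-1} (6 X_k² + X_k) = p⁴ - 1`,
`X_k = ζ^k / (ζ^k - 1)²` -/
theorem sum_six_sq_add (hp : 0 < p) (hζ : IsPrimitiveRoot ζ p) (h2 : (2 : K) ≠ 0)
    (h3 : (3 : K) ≠ 0) (h5 : (5 : K) ≠ 0) :
    120 * ∑ k ∈ (Finset.range p).erase 0,
        (6 * (ζ ^ k / (ζ ^ k - 1) ^ 2) ^ 2 + ζ ^ k / (ζ ^ k - 1) ^ 2) = (p : K) ^ 4 - 1 := by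
  classical
  set s := (Finset.range p).erase 0 with hs
  set w := wOf ζ with hw
  have hP : (p : K) ≠ 0 := natCast_ne_zero_of_primitiveRoot hp hζ
  have h6 : (6 : K) ≠ 0 := by
    have : (6 : K) = 2 * 3 := by norm_num
    rw [this]; exact mul_ne_zero h2 h3
  have h24 : (24 : K) ≠ 0 := by
    have : (24 : K) = 2 * 2 * 6 := by norm_num
    rw [this]; exact mul_ne_zero (mul_ne_zero h2 h2) h6
  have h120 : (120 : K) ≠ 0 := by
    have : (120 : K) = 5 * 24 := by norm_num
    rw [this]; exact mul_ne_zero h5 h24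
  -- the summands in terms of `w`
  have hX : ∀ k ∈ s, ζ ^ k / (ζ ^ k - 1) ^ 2 = w k ^ 2 - w k := by
    intro k hk
    have hne := one_sub_pow_ne_zero hζ hk
    have hne' : ζ ^ k - 1 ≠ 0 := fun h => hne (by linear_combination -h)
    rw [hw, wOf]
    field_simp
    ring
  have hsum : ∑ k ∈ s, (6 * (ζ ^ k / (ζ ^ k - 1) ^ 2) ^ 2 + ζ ^ k / (ζ ^ k - 1) ^ 2)
      = 6 * psumK s w 4 - 12 * psumK s w 3 + 7 * psumK s w 2 - psumK s w 1 := by
    simp only [psumK, Finset.mul_sum, ← Finset.sum_sub_distrib, ← Finset.sum_add_distrib]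
    refine Finset.sum_congr rfl fun k hk => ?_
    rw [hX k hk]
    ring
  rw [hsum]
  -- the coefficients
  obtain ⟨n0, n1, n2, n3⟩ := newton_four s w
  have c0 := coeff_genE hp hζ 0
  have c1 := coeff_genE hp hζ 1
  have c2 := coeff_genE hp hζ 2
  have c3 := coeff_genE hp hζ 3
  have c4 := coeff_genE hp hζ 4
  rw [← hs, ← hw] at c0 c1 c2 c3 c4
  set e0 := (genE s w).coeff 0
  set e1 := (genE s w).coeff 1
  set e2 := (genE s w).coeff 2
  set e3 := (genE s w).coeff 3
  set e4 := (genE s w).coeff 4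
  set P := (p : K) with hPdef
  have E0 : e0 = 1 := by
    have h : P * e0 = P * 1 := by rw [c0]; simp [hPdef]
    exact mul_left_cancel₀ hP h
  have E1 : e1 = (P - 1) / 2 := by
    have h : P * (2 * e1) = P * (P - 1) := by
      have := choose_two_eq (K := K) p
      linear_combination 2 * c1 + this
    have h' := mul_left_cancel₀ hP h
    field_simp
    linear_combination h'
  have E2 : e2 = (P - 1) * (P - 2) / 6 := by
    have h : P * (6 * e2) = P * ((P - 1) * (P - 2)) := by
      have := choose_three_eq (K := K) p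
      linear_combination 6 * c2 + this
    have h' := mul_left_cancel₀ hP h
    field_simp
    linear_combination h'
  have E3 : e3 = (P - 1) * (P - 2) * (P - 3) / 24 := by
    have h : P * (24 * e3) = P * ((P - 1) * (P - 2) * (P - 3)) := by
      have := choose_four_eq (K := K) p
      linear_combination 24 * c3 + this
    have h' := mul_left_cancel₀ hP h
    field_simp
    linear_combination h'
  have E4 : e4 = (P - 1) * (P - 2) * (P - 3) * (P - 4) / 120 := by
    have h : P * (120 * e4) = P * ((P - 1) * (P - 2) * (P - 3) * (P - 4)) := by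
      have := choose_five_eq (K := K) p
      linear_combination 120 * c4 + this
    have h' := mul_left_cancel₀ hP h
    field_simp
    linear_combination h'
  -- the power sums
  have S1 : psumK s w 1 = e1 := by rw [n0, E0, mul_one]
  have S2 : psumK s w 2 = psumK s w 1 * e1 - e2 * 2 := by rw [n1, E0]; ring
  have S3 : psumK s w 3 = e3 * 3 - psumK s w 1 * e2 + psumK s w 2 * e1 := by rw [n2, E0]; ring
  have S4 : psumK s w 4 = psumK s w 1 * e3 - psumK s w 2 * e2 + psumK s w 3 * e1 - e4 * 4 := by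
    rw [n3, E0]; ring
  rw [S4, S3, S2, S1, E1, E2, E3, E4]
  field_simp
  ring

end Roots

end Fermat.Agent.S15lib.Dict.EL2
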