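/-
S15lib / Dict / EL2 / NodalVelu  (helper6) — Project E, block (DICT), sub-block (EL2)

Vélu's invariants of the quotient of a NODAL Weierstrass cubic `W` (over an algebraically closed
field `k`, `Δ = 0`, `c₄ ≠ 0`) by a point `P` of odd prime order `p`:

* `psi2_nsmul_ne_zero` : `ψ₂(jP) ≠ 0` for `p ∤ j`;
* `veluC4_eq` : `c₄' = p⁴ c₄` (if `2, 3, 5` are invertible in `k`).

Proof: normal form `y² + xy = x³` (`S58lib.Mult.exists_variableChange_nodal`), parametrisation by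
`kˣ` (`Nodal.lean`), and the root-of-unity sum (`RootSum.lean`).
-/
import Mathlib
import Fermat.Agent.S15lib.Dict.Defs
import Fermat.Agent.S15lib.Dict.EL2.RootSum
import Fermat.Agent.S15lib.Dict.EL2.Nodal
import Fermat.Agent.S58lib.Mult.Normal

set_option autoImplicit false

namespace Fermat.Agent.S15lib.Dict.EL2

open WeierstrassCurve WeierstrassCurve.Affine Fermat.Agent.S58lib.Mult Fermat.Agent.S51lib

section HalfSum

/-- a symmetric sum over `1 ≤ j ≤ p - 1` (`p` odd) is twice the half sum -/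
theorem sum_Icc_eq_two_mul_half {M : Type*} [AddCommMonoid M] {p : ℕ} (hodd : Odd p)
    (f : ℕ → M) (hf : ∀ j ∈ Finset.Icc 1 (p - 1), f (p - j) = f j) :
    ∑ j ∈ Finset.Icc 1 (p - 1), f j = 2 • ∑ j ∈ Finset.Icc 1 ((p - 1) / 2), f j := by
  obtain ⟨m, rfl⟩ := hodd
  have h1 : 2 * m + 1 - 1 = 2 * m := by omega
  have h2 : 2 * m / 2 = m := by omega
  rw [h1, h2]
  have hsplit : Finset.Icc 1 (2 * m) = Finset.Icc 1 m ∪ Finset.Icc (m + 1) (2 * m) := by
    ext j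
    simp only [Finset.mem_Icc, Finset.mem_union]
    omega
  have hdisj : Disjoint (Finset.Icc 1 m) (Finset.Icc (m + 1) (2 * m)) := by
    rw [Finset.disjoint_left]
    intro j hj hj'
    simp only [Finset.mem_Icc] at hj hj'
    omega
  rw [hsplit, Finset.sum_union hdisj, two_nsmul]
  congr 1
  refine Finset.sum_nbij' (fun j => 2 * m + 1 - j) (fun j => 2 * m + 1 - j) ?_ ?_ ?_ ?_ ?_
  · intro j hj
    simp only [Finset.mem_Icc] at hj ⊢
    omega
  · intro j hj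
    simp only [Finset.mem_Icc] at hj ⊢
    omega
  · intro j hj
    simp only [Finset.mem_Icc] at hj
    omega
  · intro j hj
    simp only [Finset.mem_Icc] at hj
    omega
  · intro j hj
    simp only [Finset.mem_Icc] at hj
    have := hf (2 * m + 1 - j) (by simp only [Finset.mem_Icc]; omega)
    rw [← this]
    congr 1
    omega

end HalfSum

section Transport

variable {k : Type*} [Field k] (W : WeierstrassCurve k) (C : VariableChange k)

/-- the relations between `W` and the variable change bringing it to `y² + xy = x³` -/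
theorem nodal_relations (hC : C • W = nodal k) :
    W.a₁ + 2 * C.s = (C.u : k) ∧ W.a₃ + C.r * W.a₁ + 2 * C.t = 0 ∧
    W.b₂ + 12 * C.r = (C.u : k) ^ 2 ∧ W.b₄ + C.r * W.b₂ + 6 * C.r ^ 2 = 0 ∧
    W.c₄ = (C.u : k) ^ 4 := by
  have hu : (C.u : k) ≠ 0 := C.u.ne_zero
  have hinv : ((C.u⁻¹ : kˣ) : k) = (C.u : k)⁻¹ := Units.val_inv_eq_inv_val C.u
  have e1 := congrArg WeierstrassCurve.a₁ hC
  have e3 := congrArg WeierstrassCurve.a₃ hC
  have eb2 := congrArg WeierstrassCurve.b₂ hC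
  have eb4 := congrArg WeierstrassCurve.b₄ hC
  have ec4 := congrArg WeierstrassCurve.c₄ hC
  rw [variableChange_a₁, hinv] at e1
  rw [variableChange_a₃, hinv] at e3
  rw [variableChange_b₂, hinv] at eb2
  rw [variableChange_b₄, hinv] at eb4
  rw [variableChange_c₄, hinv] at ec4
  simp only [nodal_a₁, nodal_a₃] at e1 e3
  have hb2 : (nodal k).b₂ = 1 := by simp [WeierstrassCurve.b₂]
  have hb4 : (nodal k).b₄ = 0 := by simp [WeierstrassCurve.b₄]
  have hc4 : (nodal k).c₄ = 1 := by simp [WeierstrassCurve.c₄, hb2, hb4]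
  rw [hb2] at eb2
  rw [hb4] at eb4
  rw [hc4] at ec4
  refine ⟨?_, ?_, ?_, ?_, ?_⟩
  · field_simp at e1
    linear_combination e1
  · have h3 : (C.u : k)⁻¹ ^ 3 ≠ 0 := pow_ne_zero _ (inv_ne_zero hu)
    exact (mul_eq_zero.1 e3).resolve_left h3
  · field_simp at eb2
    linear_combination eb2
  · have h4 : (C.u : k)⁻¹ ^ 4 ≠ 0 := pow_ne_zero _ (inv_ne_zero hu)
    exact (mul_eq_zero.1 eb4).resolve_left h4
  · field_simp at ec4
    linear_combination ec4

/-- `t_P = 6x² + b₂x + b₄` in the nodal coordinates -/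
theorem t_vcX (hC : C • W = nodal k) (X : k) :
    6 * vcX C X ^ 2 + W.b₂ * vcX C X + W.b₄ = (C.u : k) ^ 4 * (6 * X ^ 2 + X) := by
  obtain ⟨-, -, h2, h4, -⟩ := nodal_relations W C hC
  rw [vcX]
  linear_combination ((C.u : k) ^ 2 * X) * h2 + h4

/-- `ψ₂ = 2y + a₁x + a₃` in the nodal coordinates -/
theorem psi_vc (hC : C • W = nodal k) (X Y : k) :
    2 * vcY C X Y + W.a₁ * vcX C X + W.a₃ = (C.u : k) ^ 3 * (2 * Y + X) := by
  obtain ⟨h1, h3, -, -, -⟩ := nodal_relations W C hC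
  rw [vcX, vcY]
  linear_combination ((C.u : k) ^ 2 * X) * h1 + h3

end Transport

section Main

variable {k : Type*} [Field k] [DecidableEq k] [IsAlgClosed k] (W : WeierstrassCurve k)

/-- a point of exact order `p` on a nodal cubic: its multiples in nodal coordinates -/
theorem exists_nodal_coordinates (hΔ : W.Δ = 0) (hc₄ : W.c₄ ≠ 0) {p : ℕ}
    (P : W.toAffine.Point) (hP : addOrderOf P = p) :
    ∃ (C : VariableChange k) (_ : C • W = nodal k) (ζ : kˣ), IsPrimitiveRoot (ζ : k) p ∧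
      ∀ j : ℕ, (ζ : k) ^ j ≠ 1 →
        ptX (j • P) = vcX C (gX ((ζ : k) ^ j)) ∧
        ptY (j • P) = vcY C (gX ((ζ : k) ^ j)) (gY ((ζ : k) ^ j)) := by
  obtain ⟨C, hC⟩ := exists_variableChange_nodal W hΔ hc₄
  set e := vcEquiv' W C hC with he
  have hord : addOrderOf (e.symm P) = p := by
    rw [← hP]
    exact AddEquiv.addOrderOf_eq e.symm P
  obtain ⟨ζ, hζ, hmul⟩ := exists_primitiveRoot_of_addOrderOf hord
  refine ⟨C, hC, ζ, hζ, fun j hj => ?_⟩
  have h1 : j • P = e (gm (ζ ^ j)) := by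
    rw [← hmul j, map_nsmul, AddEquiv.apply_symm_apply]
  have hj' : ((ζ ^ j : kˣ) : k) ≠ 1 := by rwa [Units.val_pow_eq_pow_val]
  rw [h1, gm_eq_some hj']
  obtain ⟨hns, hsome⟩ := vcEquiv'_some W C hC (nonsingular_g (ζ ^ j).ne_zero hj')
  rw [he, hsome]
  refine ⟨?_, ?_⟩
  · rw [ptX_some, Units.val_pow_eq_pow_val]
  · rw [ptY_some, Units.val_pow_eq_pow_val]

/-- **`ψ₂(jP) ≠ 0`** on a nodal cubic, `P` of odd prime order `p`, `p ∤ j` -/
theorem psi2_nsmul_ne_zero (hΔ : W.Δ = 0) (hc₄ : W.c₄ ≠ 0) {p : ℕ} (hp : p.Prime)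
    (hp2 : p ≠ 2) (P : W.toAffine.Point) (hP : addOrderOf P = p) {j : ℕ} (hj : ¬ p ∣ j) :
    psi2 W (j • P) ≠ 0 := by
  obtain ⟨C, hC, ζ, hζ, hcoord⟩ := exists_nodal_coordinates W hΔ hc₄ P hP
  have hζj : (ζ : k) ^ j ≠ 1 := fun h => hj ((hζ.pow_eq_one_iff_dvd j).1 h)
  obtain ⟨hx, hy⟩ := hcoord j hζj
  rw [psi2, hx, hy, psi_vc W C hC, two_gY_add_gX hζj]
  have hu : (C.u : k) ≠ 0 := C.u.ne_zero
  have hζ0 : (ζ : k) ^ j ≠ 0 := pow_ne_zero _ ζ.ne_zero
  have hsub : (ζ : k) ^ j - 1 ≠ 0 := sub_ne_zero.2 hζj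
  have hadd : (ζ : k) ^ j + 1 ≠ 0 := by
    intro h0
    have hsq : (ζ : k) ^ (2 * j) = 1 := by
      have : (ζ : k) ^ j = -1 := by linear_combination h0
      rw [mul_comm, pow_mul, this]
      ring
    have hdvd := (hζ.pow_eq_one_iff_dvd (2 * j)).1 hsq
    rcases (Nat.Prime.dvd_mul hp).1 hdvd with h | h
    · exact hp2 ((Nat.prime_dvd_prime_iff_eq hp Nat.prime_two).1 h)
    · exact hj h
  exact mul_ne_zero (pow_ne_zero _ hu)
    (div_ne_zero (mul_ne_zero hζ0 hadd) (pow_ne_zero _ hsub))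

/-- **`c₄(E/⟨P⟩) = p⁴ c₄`** on a nodal cubic -/
theorem veluC4_eq (hΔ : W.Δ = 0) (hc₄ : W.c₄ ≠ 0) {p : ℕ} (hp : p.Prime) (hp2 : p ≠ 2)
    (P : W.toAffine.Point) (hP : addOrderOf P = p) (h2 : (2 : k) ≠ 0) (h3 : (3 : k) ≠ 0)
    (h5 : (5 : k) ≠ 0) : veluC4 W P p = W.c₄ * (p : k) ^ 4 := by
  obtain ⟨C, hC, ζ, hζ, hcoord⟩ := exists_nodal_coordinates W hΔ hc₄ P hP
  obtain ⟨-, -, -, -, hc4u⟩ := nodal_relations W C hC
  have hodd : Odd p := hp.odd_of_ne_two hp2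
  set f : ℕ → k := fun j => 6 * gX ((ζ : k) ^ j) ^ 2 + gX ((ζ : k) ^ j) with hf
  have hζj : ∀ j ∈ Finset.Icc 1 (p - 1), (ζ : k) ^ j ≠ 1 := by
    intro j hj h
    rw [Finset.mem_Icc] at hj
    have hdvd := (hζ.pow_eq_one_iff_dvd j).1 h
    have := Nat.le_of_dvd (by omega) hdvd
    omega
  -- the terms of Vélu's sum
  have hterm : ∀ j ∈ Finset.Icc 1 ((p - 1) / 2),
      6 * ptX (j • P) ^ 2 + W.b₂ * ptX (j • P) + W.b₄ = (C.u : k) ^ 4 * f j := by
    intro j hj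
    have hj' : j ∈ Finset.Icc 1 (p - 1) := by
      rw [Finset.mem_Icc] at hj ⊢
      omega
    rw [(hcoord j (hζj j hj')).1, t_vcX W C hC]
  -- symmetry
  have hsymm : ∀ j ∈ Finset.Icc 1 (p - 1), f (p - j) = f j := by
    intro j hj
    have hjp : j ≤ p := by rw [Finset.mem_Icc] at hj; omega
    have hinv : (ζ : k) ^ (p - j) = ((ζ : k) ^ j)⁻¹ := by
      have h1 : (ζ : k) ^ (p - j) * (ζ : k) ^ j = 1 := by
        rw [← pow_add, Nat.sub_add_cancel hjp, hζ.pow_eq_one]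
      exact eq_inv_of_mul_eq_one_left h1
    simp only [hf]
    rw [hinv, gX_inv (pow_ne_zero _ ζ.ne_zero) (hζj j hj)]
  have hhalf := sum_Icc_eq_two_mul_half hodd f hsymm
  -- the full sum
  have hIcc : Finset.Icc 1 (p - 1) = (Finset.range p).erase 0 := by
    ext j
    simp only [Finset.mem_Icc, Finset.mem_erase, Finset.mem_range]
    have := hp.pos
    omega
  have hfull := sum_six_sq_add hp.pos hζ h2 h3 h5
  rw [← hIcc] at hfull
  have hfull' : 120 * ∑ j ∈ Finset.Icc 1 (p - 1), f j = (p : k) ^ 4 - 1 := by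
    rw [← hfull]
    congr 1
  rw [veluC4, veluT, Finset.sum_congr rfl hterm, ← Finset.mul_sum, hc4u]
  rw [hhalf, nsmul_eq_mul] at hfull'
  push_cast at hfull'
  linear_combination (C.u : k) ^ 4 * hfull'

end Main

end Fermat.Agent.S15lib.Dict.EL2
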