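/-
S15lib / Dict / EL2 / Main  (helper6) — Project E, block (DICT), sub-block (EL2)

`localHardStmt : Dict.LocalHardStmt` :  at a prime `ℓ ≥ 5` of multiplicative reduction, for a point
`Q ∈ E⁰` of odd prime order `p ≠ ℓ`, Vélu's `c₄(E/⟨Q⟩)` and all `ψ₂(kQ)` are units at `A ∣ ℓ`.

Proof: `Q` and its multiples reduce to the multiples of a point `Q̃` of exact order `p` on the
nodal reduction (`S58lib.Red`: reduction is additive and injective on prime-to-`ℓ` torsion, for
every reduction type); Vélu's expressions reduce coefficientwise; on the nodal cubic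
`ψ₂(jQ̃) ≠ 0` and `c₄' = p⁴ c₄` (`NodalVelu.lean`; for `ℓ = 5` simply `240 = 0`).
-/
import Mathlib
import Fermat.Agent.S15lib.Dict.Iface
import Fermat.Agent.S15lib.Dict.EL2.NodalVelu
import Fermat.Agent.S58lib.Mult.Main

set_option autoImplicit false

namespace Fermat.Agent.S15lib.Dict.EL2

open IsLocalRing WeierstrassCurve WeierstrassCurve.Affine WeierstrassCurve.Affine.Point
open Fermat.Agent.S05lib Fermat.Agent.S41lib.NE Fermat.Agent.S58lib.Red Fermat.Agent.S58lib.Mult

section Res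

universe u

variable {L : Type u} [Field L] {A : ValuationSubring L}

theorem res_sum {ι : Type*} (s : Finset ι) (f : ι → L) (g : ι → ResidueField A)
    (h : ∀ i ∈ s, Res A (f i) (g i)) : Res A (∑ i ∈ s, f i) (∑ i ∈ s, g i) := by
  classical
  induction s using Finset.induction_on with
  | empty => simpa using (Res.zero (A := A))
  | insert a s ha ih =>
    rw [Finset.sum_insert ha, Finset.sum_insert ha]
    exact (h a (Finset.mem_insert_self a s)).add
      (ih fun i hi => h i (Finset.mem_insert_of_mem hi))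

theorem res_prod {ι : Type*} (s : Finset ι) (f : ι → L) (g : ι → ResidueField A)
    (h : ∀ i ∈ s, Res A (f i) (g i)) : Res A (∏ i ∈ s, f i) (∏ i ∈ s, g i) := by
  classical
  induction s using Finset.induction_on with
  | empty => simpa using (Res.one (A := A))
  | insert a s ha ih =>
    rw [Finset.prod_insert ha, Finset.prod_insert ha]
    exact (h a (Finset.mem_insert_self a s)).mul
      (ih fun i hi => h i (Finset.mem_insert_of_mem hi))

variable {W : WeierstrassCurve L} {Wb : WeierstrassCurve (ResidueField A)}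

theorem res_ptX {P : W.toAffine.Point} {Pb : Wb.toAffine.Point} (h : RedPt A P Pb) :
    Res A (ptX P) (ptX Pb) := by
  rcases P with _ | ⟨x, y, hP⟩ <;> rcases Pb with _ | ⟨xb, yb, hPb⟩
  · exact Res.zero
  · exact h.elim
  · exact h.elim
  · exact h.1

theorem res_ptY {P : W.toAffine.Point} {Pb : Wb.toAffine.Point} (h : RedPt A P Pb) :
    Res A (ptY P) (ptY Pb) := by
  rcases P with _ | ⟨x, y, hP⟩ <;> rcases Pb with _ | ⟨xb, yb, hPb⟩
  · exact Res.zero
  · exact h.elim
  · exact h.elim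
  · exact h.2

theorem res_b₂ (hR : RedCurve A W Wb) : Res A W.b₂ Wb.b₂ := by
  simp only [WeierstrassCurve.b₂]
  exact (hR.a₁.pow 2).add ((Res.ofNat 4).mul hR.a₂)

theorem res_b₄ (hR : RedCurve A W Wb) : Res A W.b₄ Wb.b₄ := by
  simp only [WeierstrassCurve.b₄]
  exact ((Res.ofNat 2).mul hR.a₄).add (hR.a₁.mul hR.a₃)

theorem res_psi2 (hR : RedCurve A W Wb) {P : W.toAffine.Point} {Pb : Wb.toAffine.Point}
    (h : RedPt A P Pb) : Res A (psi2 W P) (psi2 Wb Pb) := by
  simp only [psi2]
  exact (((Res.ofNat 2).mul (res_ptY h)).add (hR.a₁.mul (res_ptX h))).add hR.a₃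

variable [DecidableEq L] [DecidableEq (ResidueField A)]

theorem res_veluPsi (hR : RedCurve A W Wb) {Q : W.toAffine.Point} {Qb : Wb.toAffine.Point}
    (h : ∀ j : ℕ, RedPt A (j • Q) (j • Qb)) (p : ℕ) :
    Res A (veluPsi W Q p) (veluPsi Wb Qb p) := by
  simp only [veluPsi]
  exact res_prod _ _ _ fun j _ => res_psi2 hR (h j)

theorem res_veluC4 (hR : RedCurve A W Wb) {Q : W.toAffine.Point} {Qb : Wb.toAffine.Point}
    (h : ∀ j : ℕ, RedPt A (j • Q) (j • Qb)) (p : ℕ) :
    Res A (veluC4 W Q p) (veluC4 Wb Qb p) := by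
  simp only [veluC4, veluT]
  refine hR.res_c₄.add ((Res.ofNat 240).mul (res_sum _ _ _ fun j _ => ?_))
  exact (((Res.ofNat 6).mul ((res_ptX (h j)).pow 2)).add ((res_b₂ hR).mul (res_ptX (h j)))).add
    (res_b₄ hR)

end Res

local notation "Qb" => AlgebraicClosure ℚ

/-- **(EL2)** -/
theorem localHardStmt : LocalHardStmt := by
  intro p hp hp2 W ℓ hℓ hℓp hℓ2 hℓ3 hℓΔ hℓc₄ A hA Q hQord hzero
  classical
  have hR := redCurve_int_cast W A
  have hcoef := baseChange_int_coeffs W (K := Qb)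
  have hℓp' : ¬ ℓ ∣ p := fun h => hℓp ((Nat.prime_dvd_prime_iff_eq hℓ hp).1 h)
  have hvp : A.valuation ((p : ℕ) : Qb) = 1 := val_natCast_eq_one_of_not_dvd hℓ hA hℓp'
  have hpQ : p • Q = 0 := by rw [← hQord]; exact addOrderOf_nsmul_eq_zero Q
  have hQ0 : Q ≠ 0 := by
    rintro rfl
    rw [addOrderOf_zero] at hQord
    exact hp.one_lt.ne hQord
  -- the reduction of `Q`
  obtain ⟨Qr, hQr⟩ : ∃ Qr : (W.map (Int.castRingHom (ResidueField A))).toAffine.Point,
      RedPt A Q Qr := by
    rcases hzero with h0 | ⟨x, y, hns, rfl, hx | ⟨hx, hy, hnsb⟩⟩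
    · exact absurd h0 hQ0
    · exfalso
      apply hx
      rw [← A.valuation_le_one_iff]
      exact val_x_le_one_of_nsmul_eq_zero hR.integralModel hns hvp hpQ
    · exact ⟨Point.some _ _ hnsb, Res.mk ⟨x, hx⟩, Res.mk ⟨y, hy⟩⟩
  have hmul : ∀ j : ℕ, RedPt A (j • Q) (j • Qr) := fun j => RedPt.nsmul hR hvp hQr hpQ j
  have hQr0 : Qr ≠ 0 := fun h => hQ0 (hQr.eq_zero_iff.2 h)
  have hpQr : p • Qr = 0 := by
    have := hmul p
    rw [hpQ] at this
    exact this.eq_zero_iff.1 rfl
  have hordr : addOrderOf Qr = p := by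
    have : Fact p.Prime := ⟨hp⟩
    exact addOrderOf_eq_prime hpQr hQr0
  -- the reduction is a nodal cubic
  have hΔb : (W.map (Int.castRingHom (ResidueField A))).Δ = 0 := by
    have hres := hR.res_Δ
    rw [hcoef.2.2.2.2.2] at hres
    exact hres.eq_zero_iff.mpr (val_intCast_lt_one_of_dvd hℓ hA hℓΔ)
  have hc₄b : (W.map (Int.castRingHom (ResidueField A))).c₄ ≠ 0 := by
    have hres := hR.res_c₄
    have e : ((W.map (Int.castRingHom ℚ) : WeierstrassCurve ℚ)⁄Qb).c₄ = (W.c₄ : Qb) := by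
      have e' : ((W.map (Int.castRingHom ℚ) : WeierstrassCurve ℚ)⁄Qb) =
          W.map (algebraMap ℤ Qb) := Fermat.Agent.S13lib.baseChange_map_int W
      rw [e', WeierstrassCurve.map_c₄]; simp
    rw [e] at hres
    exact hres.ne_zero_iff.mpr ((val_intCast_eq_one_iff hℓ hA _).mpr hℓc₄)
  have : IsAlgClosed (ResidueField A) := Fermat.Agent.S18lib.Gink.isAlgClosed_residueField A
  have hnat : ∀ n : ℕ, ¬ ℓ ∣ n → ((n : ℕ) : ResidueField A) ≠ 0 := fun n hn =>
    (Res.natCast (A := A) n).ne_zero_iff.mpr (val_natCast_eq_one_of_not_dvd hℓ hA hn)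
  refine ⟨?_, ?_⟩
  · -- `c₄'`
    have hres := res_veluC4 hR hmul p
    rw [← hres.ne_zero_iff]
    by_cases hℓ5 : ℓ = 5
    · -- `240 = 0` in the residue field
      have h5 : ((5 : ℕ) : ResidueField A) = 0 := by
        have h := (Res.natCast (A := A) 5).eq_zero_iff.mpr (by
          have := val_intCast_lt_one_of_dvd (L := Qb) hℓ hA (n := 5) (by rw [hℓ5]; norm_num)
          simpa using this)
        exact h
      have h240 : (240 : ResidueField A) = 0 := by
        have : (240 : ResidueField A) = ((5 : ℕ) : ResidueField A) * 48 := by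
          push_cast; norm_num
        rw [this, h5, zero_mul]
      rw [veluC4, h240, zero_mul, add_zero]
      exact hc₄b
    · have hdvd : ∀ q : ℕ, q.Prime → q ≠ ℓ → ¬ ℓ ∣ q := fun q hq hne h =>
        hne ((Nat.prime_dvd_prime_iff_eq hℓ hq).1 h).symm
      have h2 : (2 : ResidueField A) ≠ 0 := by
        have := hnat 2 (hdvd 2 Nat.prime_two (Ne.symm hℓ2))
        simpa using this
      have h3 : (3 : ResidueField A) ≠ 0 := by
        have := hnat 3 (hdvd 3 Nat.prime_three (Ne.symm hℓ3))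
        simpa using this
      have h5 : (5 : ResidueField A) ≠ 0 := by
        have := hnat 5 (hdvd 5 Nat.prime_five (Ne.symm hℓ5))
        simpa using this
      rw [veluC4_eq _ hΔb hc₄b hp hp2 Qr hordr h2 h3 h5]
      exact mul_ne_zero hc₄b (pow_ne_zero _ (hnat p hℓp'))
  · -- `∏ ψ₂(kQ)`
    have hres := res_veluPsi hR hmul p
    rw [← hres.ne_zero_iff, veluPsi, Finset.prod_ne_zero_iff]
    intro j hj
    rw [Finset.mem_Icc] at hj
    refine psi2_nsmul_ne_zero _ hΔb hc₄b hp hp2 Qr hordr fun hdvd => ?_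
    have := Nat.le_of_dvd (by omega) hdvd
    have := hp.pos
    omega

end Fermat.Agent.S15lib.Dict.EL2
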