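/-
S15lib / Dict / EL2 / Small  (helper6) — Project E, block (DICT), sub-blocks (EL0), (EL1)

* `localIntStmt : Dict.LocalIntStmt` : torsion of order prime to `ℓ` is integral at `A ∣ ℓ`
  (`S05lib`: the kernel of reduction has no prime-to-`ℓ` torsion);
* `localNodeStmt : Dict.LocalNodeStmt` : an integral point outside the zero component reduces to
  the singular point, where `ψ₂ = 2y + a₁x + a₃` vanishes.
-/
import Mathlib
import Fermat.Agent.S15lib.Dict.Iface
import Fermat.Agent.S58lib.Mult.Main

set_option autoImplicit false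

namespace Fermat.Agent.S15lib.Dict.EL2

open IsLocalRing WeierstrassCurve WeierstrassCurve.Affine WeierstrassCurve.Affine.Point
open Fermat.Agent.S05lib Fermat.Agent.S41lib.NE Fermat.Agent.S58lib.Red Fermat.Agent.S58lib.Mult

local notation "Qb" => AlgebraicClosure ℚ

/-- **(EL0)** -/
theorem localIntStmt : LocalIntStmt := by
  intro W ℓ hℓ A hA P n hn hP
  classical
  have hR := redCurve_int_cast W A
  have hvn : A.valuation ((n : ℕ) : Qb) = 1 := val_natCast_eq_one_of_not_dvd hℓ hA hn
  rcases P with _ | ⟨x, y, h⟩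
  · exact ⟨A.zero_mem, A.zero_mem⟩
  · have hx := val_x_le_one_of_nsmul_eq_zero hR.integralModel h hvn hP
    have hy := val_y_le_one_of_val_x_le_one hR.integralModel h.1 hx
    exact ⟨(A.valuation_le_one_iff _).1 hx, (A.valuation_le_one_iff _).1 hy⟩

/-- **(EL1)** -/
theorem localNodeStmt : LocalNodeStmt := by
  intro W A Q hQ hx hy hzero
  classical
  have hR := redCurve_int_cast W A
  rcases Q with _ | ⟨x, y, h⟩
  · exact absurd rfl hQ
  · have hx' : x ∈ A := hx
    have hy' : y ∈ A := hy
    have hrx : Res A x (residue A ⟨x, hx'⟩) := Res.mk ⟨x, hx'⟩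
    have hry : Res A y (residue A ⟨y, hy'⟩) := Res.mk ⟨y, hy'⟩
    have heq := hR.equation hrx hry h.1
    -- the reduction is singular
    have hsing : ¬ (W.map (Int.castRingHom (ResidueField A))).toAffine.Nonsingular
        (residue A ⟨x, hx'⟩) (residue A ⟨y, hy'⟩) := by
      intro hns
      exact hzero (Or.inr ⟨x, y, h, rfl, Or.inr ⟨hx', hy', hns⟩⟩)
    rw [Affine.nonsingular_iff, not_and_or] at hsing
    have hpart := hsing.resolve_left (not_not.2 heq)
    rw [not_or, not_not, not_not] at hpart
    -- `ψ₂` reduces to `0`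
    have hres : Res A (psi2 _ (Point.some x y h))
        (2 * residue A ⟨y, hy'⟩ + (W.map (Int.castRingHom (ResidueField A))).a₁
          * residue A ⟨x, hx'⟩ + (W.map (Int.castRingHom (ResidueField A))).a₃) := by
      simp only [psi2, ptX_some, ptY_some]
      exact (((Res.ofNat 2).mul hry).add (hR.a₁.mul hrx)).add hR.a₃
    rw [← hres.eq_zero_iff]
    have h2 := hpart.2
    linear_combination h2

end Fermat.Agent.S15lib.Dict.EL2
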