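/-
S15lib / Dict / EL2 / Glue  (helper6) — Project E, block (DICT): the glue.

`dictStmt'_of : VeluQbStmt → ModStmt → CuspStmt → DictStmt'`.

`VeluQbStmt` is helper8's `VeluCStmt` (Vélu's discriminant identity and the modular equation) over
`ℚ̄` instead of `ℂ`.  With `a = c₄³/Δ = j(E)`, `b = j(E/⟨Q⟩)` (both Galois-fixed) the discriminant
identity gives `b / a^p = c₄'³ ∏ψ₂(kQ)⁴ / c₄^{3p}`; at a multiplicative prime `ℓ ≠ p` this is a unit if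
`Q ∈ E⁰` (EL2) and a non-unit otherwise (EL0 + EL1), and `ModStmt` translates this into the reduction
of the place `x = (a, b)` to the cusp `∞`, resp. `0`.  (`CuspStmt` only supplies a Galois-fixed place
in the vacuous case where there is no multiplicative prime `≠ p`.)
-/
import Mathlib
import Fermat.Agent.S15lib.Dict.Iface
import Fermat.Agent.S15lib.Dict.EL2.Main
import Fermat.Agent.S15lib.Dict.EL2.Small
import Fermat.Agent.S55lib.Iface.RamBridge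

set_option autoImplicit false

noncomputable section

namespace Fermat.Agent.S15lib.Dict.EL2

open IsLocalRing WeierstrassCurve WeierstrassCurve.Affine WeierstrassCurve.Affine.Point
open AlgebraicCurve ModularCurve
open Fermat.Agent.S05lib Fermat.Agent.S41lib.NE
open Fermat.Agent.S28lib Fermat.Agent.S37lib.ConjNorm Fermat.Agent.S18lib

local notation "Qb" => AlgebraicClosure ℚ
local notation "GQ" => (AlgebraicClosure ℚ ≃ₐ[ℚ] AlgebraicClosure ℚ)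

/-- **(EA) over `ℚ̄`**: helper8's `VeluCStmt` with `ℂ` replaced by `ℚ̄` (and `zbIncl` by
`Gink.intToQbar`). -/
def VeluQbStmt : Prop :=
  ∀ {p : ℕ} [Fact p.Prime] (_hodd : p ≠ 2) (E : WeierstrassCurve Qb) (_hΔ : E.Δ ≠ 0)
    (Q : E.toAffine.Point) (_hQ : addOrderOf Q = p),
    (veluC4 E Q p ^ 3 - veluC6 E Q p ^ 2) * veluPsi E Q p ^ 4 = 1728 * E.Δ ^ p ∧
    biEval₂ (Gink.intToQbar : Zb →+* Qb) (phiZ p) (veluJ E Q p) (E.c₄ ^ 3 / E.Δ) = 0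

section Galois

variable (W' : WeierstrassCurve ℚ)

theorem ptX_algEquiv_smul (σ : GQ) (P : (W'⁄Qb).Point) : ptX (σ • P) = σ (ptX P) := by
  rcases P with _ | ⟨x, y, h⟩
  · exact (map_zero σ).symm
  · rfl

theorem algEquiv_smul_nsmul (σ : GQ) (k : ℕ) (P : (W'⁄Qb).Point) : σ • (k • P) = k • (σ • P) :=
  (DistribSMul.toAddMonoidHom (W'⁄Qb).Point σ).map_nsmul k P

end Galois

section Coeffs

variable (W : WeierstrassCurve ℤ)

/-- the base change of an integral model to `ℚ̄`, as a map of `W` -/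
theorem baseChange_eq_map :
    ((W.map (Int.castRingHom ℚ) : WeierstrassCurve ℚ)⁄Qb) = W.map (algebraMap ℤ Qb) :=
  Fermat.Agent.S13lib.baseChange_map_int W

theorem bc_b₂ : ((W.map (Int.castRingHom ℚ) : WeierstrassCurve ℚ)⁄Qb).b₂ = (W.b₂ : Qb) := by
  rw [baseChange_eq_map, WeierstrassCurve.map_b₂]; simp

theorem bc_b₄ : ((W.map (Int.castRingHom ℚ) : WeierstrassCurve ℚ)⁄Qb).b₄ = (W.b₄ : Qb) := by
  rw [baseChange_eq_map, WeierstrassCurve.map_b₄]; simp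

theorem bc_b₆ : ((W.map (Int.castRingHom ℚ) : WeierstrassCurve ℚ)⁄Qb).b₆ = (W.b₆ : Qb) := by
  rw [baseChange_eq_map, WeierstrassCurve.map_b₆]; simp

theorem bc_c₄ : ((W.map (Int.castRingHom ℚ) : WeierstrassCurve ℚ)⁄Qb).c₄ = (W.c₄ : Qb) := by
  rw [baseChange_eq_map, WeierstrassCurve.map_c₄]; simp

theorem bc_c₆ : ((W.map (Int.castRingHom ℚ) : WeierstrassCurve ℚ)⁄Qb).c₆ = (W.c₆ : Qb) := by
  rw [baseChange_eq_map, WeierstrassCurve.map_c₆]; simp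

theorem bc_Δ : ((W.map (Int.castRingHom ℚ) : WeierstrassCurve ℚ)⁄Qb).Δ = (W.Δ : Qb) :=
  (baseChange_int_coeffs W (K := Qb)).2.2.2.2.2

/-- `j(E/⟨Q⟩)` is rational when `Q` is. -/
theorem veluJ_fixed (Q : ((W.map (Int.castRingHom ℚ) : WeierstrassCurve ℚ)⁄Qb).Point)
    (hQ : ∀ σ : GQ, σ • Q = Q) (p : ℕ) (σ : GQ) : σ (veluJ _ Q p) = veluJ _ Q p := by
  have hx : ∀ k : ℕ, σ (ptX (k • Q)) = ptX (k • Q) := fun k => by
    rw [← ptX_algEquiv_smul, algEquiv_smul_nsmul, hQ]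
  simp only [veluJ, veluC4, veluC6, veluT, veluW, map_div₀, map_mul, map_sub, map_add, map_pow,
    map_sum, map_ofNat, hx, bc_b₂, bc_b₄, bc_b₆, bc_c₄, bc_c₆, map_intCast]

end Coeffs

section Val

variable (W : WeierstrassCurve ℤ) {ℓ : ℕ} (hℓ : ℓ.Prime) (A : ValuationSubring Qb)
  (hA : A.LiesOverPrime ℓ)

include hℓ hA in
/-- `j(E) = c₄³/Δ` has a pole at a multiplicative prime. -/
theorem j_not_mem (hℓΔ : (ℓ : ℤ) ∣ W.Δ) (hℓc₄ : ¬ (ℓ : ℤ) ∣ W.c₄) (hΔ : W.Δ ≠ 0) :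
    ((W.c₄ : Qb) ^ 3 / (W.Δ : Qb)) ∉ A := by
  intro hmem
  rw [← A.valuation_le_one_iff, map_div₀, map_pow, (val_intCast_eq_one_iff hℓ hA _).mpr hℓc₄,
    one_pow, one_div] at hmem
  have hlt : A.valuation ((W.Δ : ℤ) : Qb) < 1 := val_intCast_lt_one_of_dvd hℓ hA hℓΔ
  have hne : A.valuation ((W.Δ : ℤ) : Qb) ≠ 0 := by
    rw [Ne, map_eq_zero]
    exact_mod_cast hΔ
  have h1 : (1 : A.ValueGroup) < (A.valuation ((W.Δ : ℤ) : Qb))⁻¹ :=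
    (one_lt_inv₀ (zero_lt_iff.mpr hne)).mpr hlt
  exact absurd hmem (not_le.mpr h1)

end Val

section Key

variable {K : Type*} [Field K] [DecidableEq K] [CharZero K]

/-- from the discriminant identity: `j' / j^p = c₄'³ Ψ⁴ / c₄^{3p}` -/
theorem veluJ_mul_inv_pow (E : WeierstrassCurve K) (Q : E.toAffine.Point) (p : ℕ)
    (hΔ : E.Δ ≠ 0) (hc₄ : E.c₄ ≠ 0)
    (hdisc : (veluC4 E Q p ^ 3 - veluC6 E Q p ^ 2) * veluPsi E Q p ^ 4 = 1728 * E.Δ ^ p) :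
    veluJ E Q p * ((E.c₄ ^ 3 / E.Δ)⁻¹) ^ p =
      veluC4 E Q p ^ 3 * veluPsi E Q p ^ 4 / E.c₄ ^ (3 * p) := by
  have h1728 : (1728 : K) ≠ 0 := by norm_num
  have hrhs : (1728 : K) * E.Δ ^ p ≠ 0 := mul_ne_zero h1728 (pow_ne_zero _ hΔ)
  have hD : veluC4 E Q p ^ 3 - veluC6 E Q p ^ 2 ≠ 0 := by
    intro h
    rw [h, zero_mul] at hdisc
    exact hrhs hdisc.symm
  rw [veluJ, inv_div, div_pow, ← pow_mul, eq_div_iff (pow_ne_zero _ hc₄)]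
  field_simp
  linear_combination (-(veluC4 E Q p ^ 3)) * hdisc

end Key

/-- **the glue of (DICT)** -/
theorem dictStmt'_of (hV : VeluQbStmt) (hM : ModStmt) (hC : CuspStmt) : DictStmt' := by
  intro p hp hp' W hΔ Q hQfix hQord
  classical
  have : Fact p.Prime := ⟨hp⟩
  by_cases hex : ∃ ℓ₀ : ℕ, ℓ₀.Prime ∧ ℓ₀ ≠ p ∧ (ℓ₀ : ℤ) ∣ W.Δ ∧ ¬ (ℓ₀ : ℤ) ∣ W.c₄
  swap
  · -- no multiplicative prime: any Galois-fixed place will do
    obtain ⟨cInf, -, -, -, hfix, -⟩ := hC hp hp'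
    refine ⟨cInf, hfix, ?_⟩
    intro ℓ hℓ hℓp hℓΔ hℓc₄
    exact absurd ⟨ℓ, hℓ, hℓp, hℓΔ, hℓc₄⟩ hex
  obtain ⟨ℓ₀, hℓ₀, hℓ₀p, hℓ₀Δ, hℓ₀c₄⟩ := hex
  have hp2 : p ≠ 2 := by
    rintro rfl
    exact hp' (by decide)
  have hp5 : 5 ≤ p := by
    by_contra hlt
    rw [not_le] at hlt
    have h2 := hp.two_le
    interval_cases p
    · exact hp' (by decide)
    · exact hp' (by decide)
    · exact absurd hp (by decide)
  have hEΔ0 : ((W.map (Int.castRingHom ℚ) : WeierstrassCurve ℚ)⁄Qb).Δ ≠ 0 := by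
    rw [bc_Δ]
    exact_mod_cast hΔ
  obtain ⟨hdisc, hphi⟩ := hV hp2 _ hEΔ0 Q hQord
  rw [bc_c₄, bc_Δ] at hphi
  -- the pair `(a, b)`
  have ha : ∀ σ : GQ, σ ((W.c₄ : Qb) ^ 3 / (W.Δ : Qb)) = (W.c₄ : Qb) ^ 3 / (W.Δ : Qb) := fun σ => by
    simp only [map_div₀, map_pow, map_intCast]
  have hb := veluJ_fixed W Q hQfix p
  have : Fact ℓ₀.Prime := ⟨hℓ₀⟩
  have hA₀ : (padicPlace ℓ₀).LiesOverPrime ℓ₀ := Fermat.Agent.S55lib.padicPlace_liesOverPrime ℓ₀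
  obtain ⟨x, hxfix, hx⟩ := hM hp5 _ _ ha hb hphi
    ⟨ℓ₀, hℓ₀, hℓ₀p, padicPlace ℓ₀, hA₀, j_not_mem W hℓ₀ _ hA₀ hℓ₀Δ hℓ₀c₄ hΔ⟩
  refine ⟨x, hxfix, ?_⟩
  intro ℓ hℓ hℓp hℓΔ hℓc₄ A hA h c hcase
  obtain ⟨h1, h2⟩ := hx hℓ hℓp A hA (j_not_mem W hℓ _ hA hℓΔ hℓc₄ hΔ) h c
  have hvc₄ : A.valuation ((W.c₄ : ℤ) : Qb) = 1 := (val_intCast_eq_one_iff hℓ hA _).mpr hℓc₄
  have hc₄0 : ((W.map (Int.castRingHom ℚ) : WeierstrassCurve ℚ)⁄Qb).c₄ ≠ 0 := by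
    rw [bc_c₄]
    intro h0
    rw [h0, _root_.map_zero] at hvc₄
    exact zero_ne_one hvc₄
  have hkey := veluJ_mul_inv_pow _ Q p hEΔ0 hc₄0 hdisc
  rw [bc_c₄, bc_Δ] at hkey
  have hval : A.valuation (veluJ _ Q p * (((W.c₄ : Qb) ^ 3 / (W.Δ : Qb))⁻¹) ^ p) =
      A.valuation (veluC4 _ Q p ^ 3 * veluPsi _ Q p ^ 4) := by
    rw [hkey, map_div₀, map_pow _ ((W.c₄ : ℤ) : Qb), hvc₄, one_pow, div_one]
  rcases hcase with ⟨hℓ2, hℓ3, hzero, hcinf⟩ | ⟨hnzero, hczero⟩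
  · -- `Q ∈ E⁰`
    refine h1 ?_ hcinf
    obtain ⟨hv4, hvΨ⟩ := localHardStmt hp hp2 W hℓ hℓp hℓ2 hℓ3 hℓΔ hℓc₄ A hA Q hQord hzero
    rw [hval, map_mul, map_pow, map_pow, hv4, hvΨ, one_pow, one_pow, one_mul]
  · -- `Q ∉ E⁰`
    refine h2 ?_ hczero
    have hℓp' : ¬ ℓ ∣ p := fun hd => hℓp ((Nat.prime_dvd_prime_iff_eq hℓ hp).1 hd)
    have hpQ : p • Q = 0 := by rw [← hQord]; exact addOrderOf_nsmul_eq_zero Q
    have hQ0 : Q ≠ 0 := by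
      rintro rfl
      rw [addOrderOf_zero] at hQord
      exact hp.one_lt.ne hQord
    have hint : ∀ k : ℕ, ptX (k • Q) ∈ A ∧ ptY (k • Q) ∈ A := fun k =>
      localIntStmt W hℓ A hA (k • Q) p hℓp' (by rw [smul_comm, hpQ, nsmul_zero])
    obtain ⟨e1, -, e3, -, -, -⟩ := baseChange_int_coeffs W (K := Qb)
    have hpsi : ∀ k : ℕ, psi2 _ (k • Q) ∈ A := fun k => by
      simp only [psi2, e1, e3]
      exact A.add_mem _ _ (A.add_mem _ _ (A.mul_mem _ _ (ofNat_mem A 2) (hint k).2)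
        (A.mul_mem _ _ (intCast_mem A _) (hint k).1)) (intCast_mem A _)
    have hc4mem : veluC4 _ Q p ∈ A := by
      simp only [veluC4, veluT, bc_c₄, bc_b₂, bc_b₄]
      refine A.add_mem _ _ (intCast_mem A _)
        (A.mul_mem _ _ (ofNat_mem A 240) (sum_mem fun k _ => ?_))
      exact A.add_mem _ _ (A.add_mem _ _ (A.mul_mem _ _ (ofNat_mem A 6) (pow_mem (hint k).1 2))
        (A.mul_mem _ _ (intCast_mem A _) (hint k).1)) (intCast_mem A _)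
    have hint1 := hint 1
    rw [one_smul] at hint1
    have hnode : A.valuation (psi2 _ Q) < 1 := localNodeStmt W A Q hQ0 hint1.1 hint1.2 hnzero
    have h1mem : 1 ∈ Finset.Icc 1 (p - 1) := by
      rw [Finset.mem_Icc]
      omega
    have hΨ : veluPsi _ Q p =
        psi2 _ Q * ∏ k ∈ (Finset.Icc 1 (p - 1)).erase 1, psi2 _ (k • Q) := by
      rw [veluPsi, ← Finset.mul_prod_erase _ _ h1mem, one_smul]
    have hrest : (∏ k ∈ (Finset.Icc 1 (p - 1)).erase 1, psi2 _ (k • Q)) ∈ A :=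
      prod_mem fun k _ => hpsi k
    have hpsiQ : psi2 _ Q ∈ A := by
      have := hpsi 1
      rwa [one_smul] at this
    have hsplit : veluC4 _ Q p ^ 3 * veluPsi _ Q p ^ 4 =
        psi2 _ Q * (veluC4 _ Q p ^ 3 * psi2 _ Q ^ 3 *
          (∏ k ∈ (Finset.Icc 1 (p - 1)).erase 1, psi2 _ (k • Q)) ^ 4) := by
      rw [hΨ]; ring
    rw [hval, hsplit, map_mul]
    refine mul_lt_of_lt_of_le_one hnode ((A.valuation_le_one_iff _).2 ?_)
    exact A.mul_mem _ _ (A.mul_mem _ _ (pow_mem hc4mem 3) (pow_mem hpsiQ 3)) (pow_mem hrest 4)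

end Fermat.Agent.S15lib.Dict.EL2
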